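import Mathlib
import Fermat.Agent.LT.T2.Spec

/-!
# Row LT, tower T2, leaf T2.02 (`ConvCusp`): SPLIT into four sub-leaves (helper228, owner of T2.02)

OFF-MAIN.  Vocabulary: `Fermat/Agent/LT/T2/Spec.lean` v3 (helper130@b73350f76, sha256 b934629a),
byte-identical copy.  Nothing is re-defined, nothing is assumed.

* `T2.02a` `Leaf02a` : `adj f` is a (spherical) test function when `f` is.
* `T2.02b` `Leaf02b` : `conv F f` preserves the cusp functions.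
* `T2.02c` `Leaf02c` : the adjoint of `conv F f` is `conv F (adj f)` (Fubini + unimodularity).
* `T2.02d` `Leaf02d` : convolutions by spherical test functions commute (Gelfand's trick with the
  anti-involution `g ↦ adj g = det g • g⁻¹`, which preserves `U(𝔫)`, `K_∞`, `Z⁺` and every
  double coset by the elementary divisor theorem at the finite places `v ∤ 𝔫` and the singular
  value decomposition at the infinite places).

PROVED here: `leaf02_of_parts228 : Leaf02a K → Leaf02b K → Leaf02c K → Leaf02d K → T2.Leaf02 K`.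
-/

set_option autoImplicit false

open IsDedekindDomain NumberField MeasureTheory AutomorphicForm
open Fermat.Agent.LT.H556.A0

noncomputable section

namespace Fermat.Agent.LT.T2.H228

open Fermat.Agent.LT.T2

variable (K : Type) [Field K] [NumberField K]

/-- `adj` preserves the test functions and the spherical test functions. -/
def AdjTest228 (𝔫 : Ideal (𝓞 K)) : Prop :=
  (∀ f : G K → ℂ, IsTestFn 𝔫 f → IsTestFn 𝔫 (adj f)) ∧
    (∀ f : G K → ℂ, IsSphTestFn 𝔫 f → IsSphTestFn 𝔫 (adj f))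

/-- Convolution by a test function preserves the cusp functions. -/
def ConvStable228 (𝔫 : Ideal (𝓞 K)) : Prop :=
  ∀ (F : Frame K) (f φ : G K → ℂ), IsTestFn 𝔫 f → IsCuspFn 𝔫 φ → IsCuspFn 𝔫 (conv F f φ)

/-- The adjoint of `conv F f` on the cusp functions is `conv F (adj f)`. -/
def ConvAdj228 (𝔫 : Ideal (𝓞 K)) : Prop :=
  ∀ (F : Frame K) (f φ ψ : G K → ℂ), IsTestFn 𝔫 f → IsCuspFn 𝔫 φ → IsCuspFn 𝔫 ψ →
    pair F (conv F f φ) ψ = pair F φ (conv F (adj f) ψ)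

/-- Convolutions by spherical test functions commute on the cusp functions. -/
def ConvComm228 (𝔫 : Ideal (𝓞 K)) : Prop :=
  ∀ (F : Frame K) (f₁ f₂ φ : G K → ℂ), IsSphTestFn 𝔫 f₁ → IsSphTestFn 𝔫 f₂ → IsCuspFn 𝔫 φ →
    conv F f₁ (conv F f₂ φ) = conv F f₂ (conv F f₁ φ)

/-- **T2.02a.** -/
def Leaf02a : Prop := T1.T1Out K → ∀ 𝔫 : Ideal (𝓞 K), 𝔫 ≠ ⊥ → AdjTest228 K 𝔫

/-- **T2.02b.** -/
def Leaf02b : Prop := T1.T1Out K → ∀ 𝔫 : Ideal (𝓞 K), 𝔫 ≠ ⊥ → ConvStable228 K 𝔫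

/-- **T2.02c.**  (May use `T2.02a`, `T2.02b` as hypotheses.) -/
def Leaf02c : Prop :=
  T1.T1Out K → ∀ 𝔫 : Ideal (𝓞 K), 𝔫 ≠ ⊥ → AdjTest228 K 𝔫 → ConvStable228 K 𝔫 → ConvAdj228 K 𝔫

/-- **T2.02d.**  (May use `T2.02a`, `T2.02b` as hypotheses.) -/
def Leaf02d : Prop :=
  T1.T1Out K → ∀ 𝔫 : Ideal (𝓞 K), 𝔫 ≠ ⊥ → AdjTest228 K 𝔫 → ConvStable228 K 𝔫 → ConvComm228 K 𝔫

/-- **TOP of T2.02**: `T2.Leaf02` from its four parts. -/
theorem leaf02_of_parts228 (ha : Leaf02a K) (hb : Leaf02b K) (hc : Leaf02c K) (hd : Leaf02d K) :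
    T2.Leaf02 K := by
  intro hT1 𝔫 h𝔫 F
  have A := ha hT1 𝔫 h𝔫
  have B := hb hT1 𝔫 h𝔫
  exact ⟨A.1, A.2, fun f φ hf hφ => B F f φ hf hφ,
    fun f φ ψ hf hφ hψ => hc hT1 𝔫 h𝔫 A B F f φ ψ hf hφ hψ,
    fun f₁ f₂ φ h₁ h₂ hφ => hd hT1 𝔫 h𝔫 A B F f₁ f₂ φ h₁ h₂ hφ⟩

end Fermat.Agent.LT.T2.H228

end
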