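import Mathlib
import Fermat.Agent.LT.T2.H228.ConvSpec

set_option autoImplicit false

open IsDedekindDomain NumberField MeasureTheory AutomorphicForm
open Fermat.Agent.LT.H556.A0

noncomputable section

namespace Fermat.Agent.LT.T2.H228

open Fermat.Agent.LT.T2

attribute [local instance] Fermat.Agent.LT.T2.borelG

variable {K : Type} [Field K] [NumberField K]

/-- The Borel structure of `G K`. -/
theorem borelSpaceG228 : BorelSpace (G K) := ⟨rfl⟩

attribute [local instance] borelSpaceG228

/-! ## Local components -/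

/-- The component at the infinite place `w`, as a ring homomorphism. -/
def infEval228 (w : InfinitePlace K) : Adl K →+* w.Completion :=
  (Pi.evalRingHom (fun w : InfinitePlace K => w.Completion) w).comp (RingHom.fst _ _)

/-- The component at the finite place `v`, as a ring homomorphism. -/
def finEval228 (v : HeightOneSpectrum (𝓞 K)) : Adl K →+* v.adicCompletion K :=
  (RestrictedProduct.evalRingHom _ v).comp (RingHom.snd _ _)

@[simp] theorem infEval228_apply (w : InfinitePlace K) (x : Adl K) : infEval228 w x = x.1 w := rfl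

@[simp] theorem finEval228_apply (v : HeightOneSpectrum (𝓞 K)) (x : Adl K) :
    finEval228 v x = x.2 v := rfl

/-- The component at `w` composed with the embedding into `ℂ`. -/
def infEmb228 (w : InfinitePlace K) : Adl K →+* ℂ :=
  (InfinitePlace.Completion.extensionEmbedding w).comp (infEval228 w)

theorem infComp_eq228 (w : InfinitePlace K) (g : G K) :
    infComp w g = (infEmb228 w).mapMatrix (g : Matrix (Fin 2) (Fin 2) (Adl K)) := rfl

theorem finComp_eq228 (v : HeightOneSpectrum (𝓞 K)) (g : G K) :
    finComp v g = (finEval228 v).mapMatrix (g : Matrix (Fin 2) (Fin 2) (Adl K)) := rfl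

theorem infComp_mul228 (w : InfinitePlace K) (g h : G K) :
    infComp w (g * h) = infComp w g * infComp w h := by
  simp only [infComp_eq228, Units.val_mul, map_mul]

theorem finComp_mul228 (v : HeightOneSpectrum (𝓞 K)) (g h : G K) :
    finComp v (g * h) = finComp v g * finComp v h := by
  simp only [finComp_eq228, Units.val_mul, map_mul]

theorem infComp_one228 (w : InfinitePlace K) : infComp w (1 : G K) = 1 := by
  simp only [infComp_eq228, Units.val_one, map_one]

theorem finComp_one228 (v : HeightOneSpectrum (𝓞 K)) : finComp v (1 : G K) = 1 := by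
  simp only [finComp_eq228, Units.val_one, map_one]

theorem infComp_mul_inv228 (w : InfinitePlace K) (g : G K) : infComp w g * infComp w g⁻¹ = 1 := by
  rw [← infComp_mul228, mul_inv_cancel, infComp_one228]

theorem infComp_inv_mul228 (w : InfinitePlace K) (g : G K) : infComp w g⁻¹ * infComp w g = 1 := by
  rw [← infComp_mul228, inv_mul_cancel, infComp_one228]

theorem finComp_mul_inv228 (v : HeightOneSpectrum (𝓞 K)) (g : G K) :
    finComp v g * finComp v g⁻¹ = 1 := by
  rw [← finComp_mul228, mul_inv_cancel, finComp_one228]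

theorem finComp_inv_mul228 (v : HeightOneSpectrum (𝓞 K)) (g : G K) :
    finComp v g⁻¹ * finComp v g = 1 := by
  rw [← finComp_mul228, inv_mul_cancel, finComp_one228]

/-- The determinant at the infinite place `w`. -/
theorem det_infComp228 (w : InfinitePlace K) (g : G K) :
    (infComp w g).det = InfinitePlace.Completion.extensionEmbedding w
      ((Matrix.det (g : Matrix (Fin 2) (Fin 2) (Adl K))).1 w) := by
  rw [infComp_eq228, ← RingHom.map_det]; rfl

/-- The determinant at the finite place `v`. -/
theorem det_finComp228 (v : HeightOneSpectrum (𝓞 K)) (g : G K) :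
    (finComp v g).det = (Matrix.det (g : Matrix (Fin 2) (Fin 2) (Adl K))).2 v := by
  rw [finComp_eq228, ← RingHom.map_det]; rfl

/-- The matrix of the components at `w` (in the completion). -/
def infMat228 (w : InfinitePlace K) (g : G K) : Matrix (Fin 2) (Fin 2) w.Completion :=
  (infEval228 w).mapMatrix (g : Matrix (Fin 2) (Fin 2) (Adl K))

theorem trivAtInf_iff228 (w : InfinitePlace K) (g : G K) : TrivAtInf w g ↔ infMat228 w g = 1 := by
  constructor
  · intro h; exact Matrix.ext fun i j => h i j
  · intro h i j; exact congrFun (congrFun h i) j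

theorem det_infMat228 (w : InfinitePlace K) (g : G K) :
    (infMat228 w g).det = (Matrix.det (g : Matrix (Fin 2) (Fin 2) (Adl K))).1 w := by
  rw [infMat228, ← RingHom.map_det]; rfl

theorem norm_det_inf228 (w : InfinitePlace K) (g : G K) :
    ‖(Matrix.det (g : Matrix (Fin 2) (Fin 2) (Adl K))).1 w‖ = ‖(infComp w g).det‖ := by
  rw [det_infComp228]
  exact ((InfinitePlace.Completion.isometry_extensionEmbedding w).norm_map_of_map_zero
    (map_zero _) _).symm

/-! ## The level group and the compact groups at infinity -/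

theorem idealClosure_subset228 (𝔫 : Ideal (𝓞 K)) (v : HeightOneSpectrum (𝓞 K)) :
    idealClosure 𝔫 v ⊆ (v.adicCompletionIntegers K : Set (v.adicCompletion K)) := by
  refine closure_minimal ?_ (Valued.isClosed_valuationSubring (v.adicCompletion K))
  rintro _ ⟨x, -, rfl⟩
  exact HeightOneSpectrum.coe_algebraMap_mem (𝓞 K) K v x

theorem norm_le_one_of_mem228 (v : HeightOneSpectrum (𝓞 K)) {x : v.adicCompletion K}
    (hx : x ∈ v.adicCompletionIntegers K) : ‖x‖ ≤ 1 := by
  rw [Valued.toNormedField.norm_le_one_iff]
  exact (HeightOneSpectrum.mem_adicCompletionIntegers (𝓞 K) K v).1 hx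

/-- A matrix with integral entries has an integral determinant. -/
theorem det_mem_of_entries228 (v : HeightOneSpectrum (𝓞 K))
    (A : Matrix (Fin 2) (Fin 2) (v.adicCompletion K))
    (hA : ∀ i j, A i j ∈ v.adicCompletionIntegers K) : A.det ∈ v.adicCompletionIntegers K := by
  rw [Matrix.det_fin_two]
  exact sub_mem (mul_mem (hA 0 0) (hA 1 1)) (mul_mem (hA 0 1) (hA 1 0))

/-- `‖det‖_v = 1` for `g` integral at `v` together with its inverse. -/
theorem norm_det_fin_eq_one228 (v : HeightOneSpectrum (𝓞 K)) (g : G K)
    (h1 : IsIntegralAt v g) (h2 : IsIntegralAt v g⁻¹) : ‖(finComp v g).det‖ = 1 := by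
  have a1 := norm_le_one_of_mem228 v (det_mem_of_entries228 v _ h1)
  have a2 := norm_le_one_of_mem228 v (det_mem_of_entries228 v _ h2)
  have hm : ‖(finComp v g).det‖ * ‖(finComp v g⁻¹).det‖ = 1 := by
    rw [← norm_mul, ← Matrix.det_mul, finComp_mul_inv228, Matrix.det_one, norm_one]
  have b1 : 0 ≤ ‖(finComp v g).det‖ := norm_nonneg _
  have b2 : 0 ≤ ‖(finComp v g⁻¹).det‖ := norm_nonneg _
  nlinarith

theorem inLevelGroup_integral228 {𝔫 : Ideal (𝓞 K)} {u : G K} (hu : InLevelGroup 𝔫 u)
    (v : HeightOneSpectrum (𝓞 K)) : IsIntegralAt v u ∧ IsIntegralAt v u⁻¹ := by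
  constructor
  · intro i j
    have h := idealClosure_subset228 𝔫 v ((hu.2 v i j).1)
    have h1 : ((1 : Matrix (Fin 2) (Fin 2) (v.adicCompletion K)) i j)
        ∈ v.adicCompletionIntegers K := by
      by_cases hij : i = j
      · subst hij; simp only [Matrix.one_apply_eq]; exact one_mem _
      · simp only [Matrix.one_apply_ne hij]; exact zero_mem _
    have := add_mem h h1
    simpa [Matrix.sub_apply] using this
  · intro i j
    have h := idealClosure_subset228 𝔫 v ((hu.2 v i j).2)
    have h1 : ((1 : Matrix (Fin 2) (Fin 2) (v.adicCompletion K)) i j)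
        ∈ v.adicCompletionIntegers K := by
      by_cases hij : i = j
      · subst hij; simp only [Matrix.one_apply_eq]; exact one_mem _
      · simp only [Matrix.one_apply_ne hij]; exact zero_mem _
    have := add_mem h h1
    simpa [Matrix.sub_apply] using this

theorem infComp_eq_one_of_triv228 {w : InfinitePlace K} {g : G K} (h : TrivAtInf w g) :
    infComp w g = 1 := by
  have h1 : infMat228 w g = 1 := (trivAtInf_iff228 w g).1 h
  have h2 : infComp w g = (InfinitePlace.Completion.extensionEmbedding w).mapMatrix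
      (infMat228 w g) := rfl
  rw [h2, h1, map_one]

theorem trivAtInf_inv228 {w : InfinitePlace K} {g : G K} (h : TrivAtInf w g) :
    TrivAtInf w g⁻¹ := by
  rw [trivAtInf_iff228] at h ⊢
  have h1 : infMat228 w g * infMat228 w g⁻¹ = 1 := by
    unfold infMat228
    rw [← map_mul, ← Units.val_mul, mul_inv_cancel, Units.val_one, map_one]
  rw [h, one_mul] at h1
  exact h1

theorem trivAtFin_inv228 {v : HeightOneSpectrum (𝓞 K)} {g : G K} (h : TrivAtFin v g) :
    TrivAtFin v g⁻¹ := by
  unfold TrivAtFin at h ⊢
  have h1 := finComp_mul_inv228 v g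
  rw [h, one_mul] at h1
  exact h1

theorem inLevelGroup_inv228 {𝔫 : Ideal (𝓞 K)} {u : G K} (hu : InLevelGroup 𝔫 u) :
    InLevelGroup 𝔫 u⁻¹ := by
  refine ⟨fun w => trivAtInf_inv228 (hu.1 w), fun v i j => ⟨(hu.2 v i j).2, ?_⟩⟩
  rw [inv_inv]
  exact (hu.2 v i j).1

theorem isLocalAtInf_inv228 {w : InfinitePlace K} {g : G K} (h : IsLocalAtInf w g) :
    IsLocalAtInf w g⁻¹ :=
  ⟨fun w' hw' => trivAtInf_inv228 (h.1 w' hw'), fun v => trivAtFin_inv228 (h.2 v)⟩

theorem norm_det_of_unitary228 (A : Matrix (Fin 2) (Fin 2) ℂ) (hA : A * A.conjTranspose = 1) :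
    ‖A.det‖ = 1 := by
  have h1 : A.det * (starRingEnd ℂ) A.det = 1 := by
    have := congrArg Matrix.det hA
    rw [Matrix.det_mul, Matrix.det_conjTranspose, Matrix.det_one] at this
    exact this
  have h2 : ‖A.det‖ * ‖A.det‖ = 1 := by
    have := congrArg norm h1
    rw [norm_mul, RCLike.norm_conj, norm_one] at this
    exact this
  have h3 : 0 ≤ ‖A.det‖ := norm_nonneg _
  nlinarith

theorem isArchCompact_inv228 {w : InfinitePlace K} {k : G K} (hk : IsArchCompact w k) :
    IsArchCompact w k⁻¹ := by
  refine ⟨isLocalAtInf_inv228 hk.1, ?_, ?_⟩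
  · -- `A A* = 1` gives `A⁻¹ = A*`, hence `A⁻¹ (A⁻¹)* = A* A = 1`
    have h1 : infComp w k * (infComp w k).conjTranspose = 1 := hk.2.1
    have h2 : infComp w k⁻¹ = (infComp w k).conjTranspose := by
      calc infComp w k⁻¹ = infComp w k⁻¹ * (infComp w k * (infComp w k).conjTranspose) := by
            rw [h1, mul_one]
        _ = (infComp w k⁻¹ * infComp w k) * (infComp w k).conjTranspose := by
            rw [mul_assoc]
        _ = (infComp w k).conjTranspose := by rw [infComp_inv_mul228, one_mul]
    rw [h2, Matrix.conjTranspose_conjTranspose]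
    exact mul_eq_one_comm.mp h1
  · intro hw
    have h1 := hk.2.2 hw
    have h2 : (infComp w k).det * (infComp w k⁻¹).det = 1 := by
      rw [← Matrix.det_mul, infComp_mul_inv228, Matrix.det_one]
    rw [h1, one_mul] at h2
    exact h2


/-! ## Scalars at one infinite place are central -/

theorem adele_ext228 {x y : Adl K} (h1 : ∀ w : InfinitePlace K, x.1 w = y.1 w)
    (h2 : ∀ v : HeightOneSpectrum (𝓞 K), x.2 v = y.2 v) : x = y :=
  Prod.ext (funext h1) (RestrictedProduct.ext _ _ h2)

/-- A matrix which is scalar at `w` and trivial at all other places is a scalar matrix. -/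
theorem val_eq_scalar228 {w : InfinitePlace K} {z : G K} (hz : IsLocalAtInf w z) {r : ℂ}
    (hr : infComp w z = Matrix.diagonal (fun _ => r)) :
    (z : Matrix (Fin 2) (Fin 2) (Adl K))
      = Matrix.scalar (Fin 2) ((z : Matrix (Fin 2) (Fin 2) (Adl K)) 0 0) := by
  have hinj : Function.Injective (InfinitePlace.Completion.extensionEmbedding w) :=
    (InfinitePlace.Completion.extensionEmbedding w).injective
  have hw : ∀ i j : Fin 2, InfinitePlace.Completion.extensionEmbedding w
      (((z : Matrix (Fin 2) (Fin 2) (Adl K)) i j).1 w)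
        = (Matrix.diagonal (fun _ : Fin 2 => r)) i j := fun i j => congrFun (congrFun hr i) j
  have hoff : ∀ i j : Fin 2, i ≠ j → (z : Matrix (Fin 2) (Fin 2) (Adl K)) i j = 0 := by
    intro i j hij
    refine adele_ext228 (fun w' => ?_) (fun v => ?_)
    · by_cases hw' : w' = w
      · subst hw'
        apply hinj
        rw [hw i j, Matrix.diagonal_apply_ne _ hij]
        exact (map_zero _).symm
      · have := hz.1 w' hw' i j
        rw [this, Matrix.one_apply_ne hij]; rfl
    · have := congrFun (congrFun (hz.2 v) i) j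
      change ((z : Matrix (Fin 2) (Fin 2) (Adl K)) i j).2 v = _ at this
      rw [this, Matrix.one_apply_ne hij]; rfl
  have hdiag : (z : Matrix (Fin 2) (Fin 2) (Adl K)) 1 1
      = (z : Matrix (Fin 2) (Fin 2) (Adl K)) 0 0 := by
    refine adele_ext228 (fun w' => ?_) (fun v => ?_)
    · by_cases hw' : w' = w
      · subst hw'
        apply hinj
        rw [hw 1 1, hw 0 0, Matrix.diagonal_apply_eq, Matrix.diagonal_apply_eq]
      · rw [hz.1 w' hw' 1 1, hz.1 w' hw' 0 0, Matrix.one_apply_eq, Matrix.one_apply_eq]
    · have h1 := congrFun (congrFun (hz.2 v) 1) 1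
      have h0 := congrFun (congrFun (hz.2 v) 0) 0
      change ((z : Matrix (Fin 2) (Fin 2) (Adl K)) 1 1).2 v = _ at h1
      change ((z : Matrix (Fin 2) (Fin 2) (Adl K)) 0 0).2 v = _ at h0
      rw [h1, h0, Matrix.one_apply_eq, Matrix.one_apply_eq]
  ext i j
  fin_cases i <;> fin_cases j
  · simp
  · simpa using hoff 0 1 (by decide)
  · simpa using hoff 1 0 (by decide)
  · simpa using hdiag

/-- Scalars at one infinite place are central in `G K`. -/
theorem archPosScalar_central228 {w : InfinitePlace K} {z : G K} (hz : IsArchPosScalar w z)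
    (y : G K) : z * y = y * z := by
  obtain ⟨hloc, r, -, hr⟩ := hz
  have h := val_eq_scalar228 hloc (r := (r : ℂ)) hr
  apply Units.ext
  rw [Units.val_mul, Units.val_mul, h]
  exact (Matrix.scalar_commute _ (fun r' => Commute.all _ r') _).eq


/-! ## Integrability -/

/-- A test function is integrable. -/
theorem integrable_testFn228 (hT : T1.T1Out K) (F : Frame K) {𝔫 : Ideal (𝓞 K)} {f : G K → ℂ}
    (hf : IsTestFn 𝔫 f) : Integrable f F.μ := by
  have := F.haar
  have : T2Space (G K) := hT.locComp.2.2.1
  exact hf.cont.integrable_of_hasCompactSupport hf.cpt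

/-- The integrand of the convolution is integrable. -/
theorem integrable_conv228 (hT : T1.T1Out K) (F : Frame K) {𝔫 : Ideal (𝓞 K)} {f φ : G K → ℂ}
    (hf : IsTestFn 𝔫 f) (hφc : Continuous φ) (hφb : ∃ C : ℝ, ∀ g : G K, ‖φ g‖ ≤ C) (x : G K) :
    Integrable (fun h => φ (x * h) * f h) F.μ := by
  obtain ⟨C, hC⟩ := hφb
  refine (integrable_testFn228 hT F hf).bdd_mul (c := C) ?_ ?_
  · exact (hφc.comp (continuous_const.mul continuous_id)).aestronglyMeasurable
  · exact Filter.Eventually.of_forall fun y => hC _

/-- `conv F f φ` is bounded. -/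
theorem conv_bdd228 (hT : T1.T1Out K) (F : Frame K) {𝔫 : Ideal (𝓞 K)} {f φ : G K → ℂ}
    (hf : IsTestFn 𝔫 f) (hφb : ∃ C : ℝ, ∀ g : G K, ‖φ g‖ ≤ C) :
    ∃ C : ℝ, ∀ x : G K, ‖conv F f φ x‖ ≤ C := by
  obtain ⟨C, hC⟩ := hφb
  have hI := (integrable_testFn228 hT F hf).norm
  refine ⟨∫ y, C * ‖f y‖ ∂F.μ, fun x => ?_⟩
  unfold conv
  refine norm_integral_le_of_norm_le (hI.const_mul C) (Filter.Eventually.of_forall fun y => ?_)
  rw [norm_mul]
  exact mul_le_mul_of_nonneg_right (hC _) (norm_nonneg _)

/-- `conv F f φ` is continuous. -/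
theorem conv_continuous228 (hT : T1.T1Out K) (F : Frame K) {𝔫 : Ideal (𝓞 K)} {f φ : G K → ℂ}
    (hf : IsTestFn 𝔫 f) (hφc : Continuous φ) (hφb : ∃ C : ℝ, ∀ g : G K, ‖φ g‖ ≤ C) :
    Continuous (conv F f φ) := by
  obtain ⟨C, hC⟩ := hφb
  have : SecondCountableTopology (G K) := hT.locComp.2.2.2
  have hI := (integrable_testFn228 hT F hf).norm
  unfold conv
  refine continuous_of_dominated (bound := fun y => C * ‖f y‖) ?_ ?_ (hI.const_mul C) ?_
  · intro x
    exact ((hφc.comp (continuous_const.mul continuous_id)).mul hf.cont).aestronglyMeasurable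
  · intro x
    refine Filter.Eventually.of_forall fun y => ?_
    rw [norm_mul]
    exact mul_le_mul_of_nonneg_right (hC _) (norm_nonneg _)
  · refine Filter.Eventually.of_forall fun y => ?_
    exact (hφc.comp (continuous_id.mul continuous_const)).mul continuous_const

/-- Left `GL₂(K)`-invariance passes to `conv F f φ`. -/
theorem conv_left_inv228 (F : Frame K) {f φ : G K → ℂ}
    (hφ : ∀ (γ : GL (Fin 2) K) (g : G K),
      φ (Matrix.GeneralLinearGroup.map (algebraMap K (Adl K)) γ * g) = φ g)
    (γ : GL (Fin 2) K) (g : G K) :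
    conv F f φ (Matrix.GeneralLinearGroup.map (algebraMap K (Adl K)) γ * g) = conv F f φ g := by
  unfold conv
  refine integral_congr_ae (Filter.Eventually.of_forall fun y => ?_)
  simp only [mul_assoc, hφ]

/-- Right invariance of `conv F f φ` under an element `u` under which `f` is left invariant. -/
theorem conv_right_inv228 (F : Frame K) {f φ : G K → ℂ} {u : G K}
    (hfu : ∀ g : G K, f (u⁻¹ * g) = f g) (x : G K) :
    conv F f φ (x * u) = conv F f φ x := by
  have := F.haar
  unfold conv
  have h1 : ∫ h, φ (x * u * h) * f h ∂F.μ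
      = ∫ h, (fun h' => φ (x * h') * f (u⁻¹ * h')) (u * h) ∂F.μ := by
    refine integral_congr_ae (Filter.Eventually.of_forall fun y => ?_)
    simp [mul_assoc]
  rw [h1]
  refine (integral_mul_left_eq_self (μ := F.μ) (fun h' => φ (x * h') * f (u⁻¹ * h')) u).trans ?_
  refine integral_congr_ae (Filter.Eventually.of_forall fun y => ?_)
  simp [hfu]

/-! ## Invariance properties of the convolution -/

theorem conv_level_inv228 (F : Frame K) {𝔫 : Ideal (𝓞 K)} {f : G K → ℂ}
    (hf : IsTestFn 𝔫 f) (φ : G K → ℂ) (u : G K) (hu : InLevelGroup 𝔫 u) (x : G K) :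
    conv F f φ (x * u) = conv F f φ x :=
  conv_right_inv228 F (fun g => hf.level_left u⁻¹ (inLevelGroup_inv228 hu) g) x

theorem conv_arch_compact228 (F : Frame K) {𝔫 : Ideal (𝓞 K)} {f : G K → ℂ}
    (hf : IsTestFn 𝔫 f) (φ : G K → ℂ) (w : InfinitePlace K) (k : G K) (hk : IsArchCompact w k)
    (x : G K) : conv F f φ (x * k) = conv F f φ x :=
  conv_right_inv228 F (fun g => hf.arch_left w k⁻¹ (isArchCompact_inv228 hk) g) x

theorem conv_arch_scalar228 (F : Frame K) (f : G K → ℂ) {φ : G K → ℂ}
    (hφ : ∀ (w : InfinitePlace K) (z : G K), IsArchPosScalar w z → ∀ g : G K, φ (g * z) = φ g)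
    (w : InfinitePlace K) (z : G K) (hz : IsArchPosScalar w z) (x : G K) :
    conv F f φ (x * z) = conv F f φ x := by
  unfold conv
  refine integral_congr_ae (Filter.Eventually.of_forall fun y => ?_)
  have : x * z * y = x * y * z := by
    rw [mul_assoc, archPosScalar_central228 hz y, ← mul_assoc]
  simp only [this, hφ w z hz]


/-! ## Cuspidality -/

/-- The Borel `σ`-algebra of the adeles (the one of `A0.IsCuspidalFn`, `T1.AddFundDomC`). -/
local instance borelA228 : MeasurableSpace (Adl K) := borel (Adl K)

theorem borelSpaceA228 : BorelSpace (Adl K) := ⟨rfl⟩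

attribute [local instance] borelSpaceA228

theorem countable_K228 : Countable K :=
  (Module.finBasis ℚ K).equivFun.toEquiv.countable_iff.mpr inferInstance

theorem countable_princ228 : Countable (T1.princ K) := by
  have : Countable K := countable_K228
  exact Set.countable_range _ |>.to_subtype

/-- A parametrisation of the upper unipotent matrices is continuous. -/
theorem continuous_unip228 (n : Adl K → G K)
    (hn : ∀ x : Adl K, (n x : Matrix (Fin 2) (Fin 2) (Adl K)) = !![1, x; 0, 1]) :
    Continuous n := by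
  rw [Units.continuous_iff]
  constructor
  · have : (Units.val ∘ n) = fun x : Adl K => !![1, x; 0, 1] := by
      funext x; exact hn x
    rw [this]
    refine continuous_matrix fun i j => ?_
    fin_cases i <;> fin_cases j <;> simp <;> fun_prop
  · have : (fun x : Adl K => (((n x)⁻¹ : G K) : Matrix (Fin 2) (Fin 2) (Adl K)))
        = fun x : Adl K => !![1, -x; 0, 1] := by
      funext x
      apply Units.inv_eq_of_mul_eq_one_right
      rw [hn x]
      ext i j
      fin_cases i <;> fin_cases j <;> simp [Matrix.mul_apply, Fin.sum_univ_two]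
    rw [this]
    refine continuous_matrix fun i j => ?_
    fin_cases i <;> fin_cases j <;> simp <;> fun_prop

/-- All fundamental domains of `K` in `𝔸_K` have finite measure. -/
theorem addFundDom_fin228 (hT : T1.T1Out K) (μA : Measure (Adl K)) (hμA : μA.IsAddHaarMeasure)
    (D : Set (Adl K))
    (hD : IsAddFundamentalDomain ((algebraMap K (Adl K)).toAddMonoidHom.range) D μA) :
    μA D < ⊤ := by
  have : SecondCountableTopology (Adl K) := hT.locComp.1.2.2
  have : Countable ((algebraMap K (Adl K)).toAddMonoidHom.range) := countable_princ228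
  obtain ⟨D₀, -, hD₀, -, -, hfin⟩ := hT.addFundDom μA hμA
  have h := hD.measure_eq hD₀
  rw [h]
  exact hfin

theorem conv_cuspidal228 (hT : T1.T1Out K) (F : Frame K) {𝔫 : Ideal (𝓞 K)} {f φ : G K → ℂ}
    (hf : IsTestFn 𝔫 f) (hφc : Continuous φ) (hφb : ∃ C : ℝ, ∀ g : G K, ‖φ g‖ ≤ C)
    (hφ : IsCuspidalFn φ) : IsCuspidalFn (conv F f φ) := by
  intro μA hμA D hD n hn g
  have := F.haar
  have : SecondCountableTopology (Adl K) := hT.locComp.1.2.2
  have : LocallyCompactSpace (G K) := hT.locComp.2.1
  have : SecondCountableTopology (G K) := hT.locComp.2.2.2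
  obtain ⟨C, hC⟩ := hφb
  have hDfin : μA D < ⊤ := addFundDom_fin228 hT μA hμA D hD
  have : IsFiniteMeasure (μA.restrict D) := isFiniteMeasure_restrict.2 hDfin.ne
  have hncont := continuous_unip228 n hn
  have hfI : Integrable (fun y => C * ‖f y‖) F.μ :=
    ((integrable_testFn228 hT F hf).norm).const_mul C
  -- integrability on the product
  have hprod : Integrable (Function.uncurry fun (x : Adl K) (y : G K) => φ (n x * g * y) * f y)
      ((μA.restrict D).prod F.μ) := by
    have hb : Integrable (fun z : Adl K × G K => (1 : ℝ) * (C * ‖f z.2‖))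
        ((μA.restrict D).prod F.μ) :=
      Integrable.mul_prod (f := fun _ : Adl K => (1 : ℝ)) (integrable_const _) hfI
    refine hb.mono' ?_ (Filter.Eventually.of_forall fun z => ?_)
    · have hcont : Continuous (Function.uncurry fun (x : Adl K) (y : G K) =>
          φ (n x * g * y) * f y) := by
        unfold Function.uncurry
        exact (hφc.comp (((hncont.comp continuous_fst).mul continuous_const).mul
          continuous_snd)).mul (hf.cont.comp continuous_snd)
      exact hcont.aestronglyMeasurable
    · simp only [Function.uncurry, one_mul, norm_mul]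
      exact mul_le_mul_of_nonneg_right (hC _) (norm_nonneg _)
  have hswap := integral_integral_swap hprod
  have hL : ∫ x in D, conv F f φ (n x * g) ∂μA
      = ∫ x in D, ∫ y, φ (n x * g * y) * f y ∂F.μ ∂μA := rfl
  rw [hL, hswap]
  have hzero : ∀ y : G K, ∫ x in D, φ (n x * g * y) * f y ∂μA = 0 := by
    intro y
    have h1 : ∫ x in D, φ (n x * g * y) * f y ∂μA = (∫ x in D, φ (n x * (g * y)) ∂μA) * f y := by
      rw [← integral_mul_const]
      refine integral_congr_ae (Filter.Eventually.of_forall fun x => ?_)
      simp only [mul_assoc]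
    rw [h1, hφ μA hμA D hD n hn (g * y), zero_mul]
  simp only [hzero, integral_zero]

/-! ## The leaf -/

/-- **T2.02b**: convolution by a test function preserves the cusp functions. -/
theorem leaf02b_228 : Leaf02b K := by
  intro hT 𝔫 _ F f φ hf hφ
  exact
    { cont := conv_continuous228 hT F hf hφ.cont hφ.bdd
      bdd := conv_bdd228 hT F hf hφ.bdd
      left_inv := conv_left_inv228 F hφ.left_inv
      level_inv := fun u hu g => conv_level_inv228 F hf φ u hu g
      arch_scalar := fun w z hz g => conv_arch_scalar228 F f hφ.arch_scalar w z hz g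
      arch_compact := fun w k hk g => conv_arch_compact228 F hf φ w k hk g
      cuspidal := conv_cuspidal228 hT F hf hφ.cont hφ.bdd hφ.cuspidal }

end Fermat.Agent.LT.T2.H228

end
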