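import Mathlib
import Fermat.Agent.LT.T2.H228.ConvStable

/-!
# Row LT, tower T2, leaf T2.02a (helper228): `adj` preserves the (spherical) test functions

OFF-MAIN.  `leaf02a_228 : Leaf02a K`.  Vocabulary: `T2/Spec.lean` v3 (sha256 b934629a).

* smoothness: `(g h(t))⁻¹ = g⁻¹ (g h(t)⁻¹ g⁻¹)` and the conjugated family is again trivial at the
  finite places and smooth at the infinite places (inverse of a `2 × 2` matrix);
* compact support: `adj f = conj ∘ f ∘ (·)⁻¹` and inversion is a homeomorphism of `G K`.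
-/

set_option autoImplicit false
set_option linter.unusedSectionVars false

open IsDedekindDomain NumberField MeasureTheory AutomorphicForm
open Fermat.Agent.LT.H556.A0
open scoped ContDiff

noncomputable section

namespace Fermat.Agent.LT.T2.H228

open Fermat.Agent.LT.T2

variable {K : Type} [Field K] [NumberField K]

/-! ## `adj f`: the algebraic fields -/

theorem adj_apply228 (f : G K → ℂ) (g : G K) : adj f g = (starRingEnd ℂ) (f g⁻¹) := rfl

theorem adj_cont228 {f : G K → ℂ} (hf : Continuous f) : Continuous (adj f) :=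
  Complex.continuous_conj.comp (hf.comp continuous_inv)

theorem adj_right228 {f : G K → ℂ} {u : G K} (hf : ∀ g : G K, f (u⁻¹ * g) = f g) (g : G K) :
    adj f (g * u) = adj f g := by
  rw [adj_apply228, adj_apply228, mul_inv_rev, hf]

theorem adj_left228 {f : G K → ℂ} {u : G K} (hf : ∀ g : G K, f (g * u⁻¹) = f g) (g : G K) :
    adj f (u * g) = adj f g := by
  rw [adj_apply228, adj_apply228, mul_inv_rev, hf]


/-! ## Compact support -/

theorem adj_cpt228 {f : G K → ℂ} (hf : HasCompactSupport f) : HasCompactSupport (adj f) := by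
  have h1 : HasCompactSupport (f ∘ (Homeomorph.inv (G K))) := hf.comp_homeomorph _
  have h2 : HasCompactSupport ((starRingEnd ℂ) ∘ (f ∘ (Homeomorph.inv (G K)))) :=
    h1.comp_left (map_zero _)
  exact h2

/-! ## Smoothness at infinity -/

theorem contDiff_mul_entries228 {n : ℕ} (A B : (Fin n → ℝ) → Matrix (Fin 2) (Fin 2) ℂ)
    (hA : ∀ i j, ContDiff ℝ ∞ (fun t => A t i j)) (hB : ∀ i j, ContDiff ℝ ∞ (fun t => B t i j))
    (i j : Fin 2) : ContDiff ℝ ∞ (fun t => (A t * B t) i j) := by
  have : (fun t => (A t * B t) i j) = fun t => A t i 0 * B t 0 j + A t i 1 * B t 1 j := by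
    funext t; rw [Matrix.mul_apply, Fin.sum_univ_two]
  rw [this]
  exact ((hA i 0).mul (hB 0 j)).add ((hA i 1).mul (hB 1 j))

theorem contDiff_inv_entries228 {n : ℕ} (M N : (Fin n → ℝ) → Matrix (Fin 2) (Fin 2) ℂ)
    (hMN : ∀ t, M t * N t = 1) (hM : ∀ i j, ContDiff ℝ ∞ (fun t => M t i j))
    (i j : Fin 2) : ContDiff ℝ ∞ (fun t => N t i j) := by
  have hdet : ∀ t, (M t).det ≠ 0 := by
    intro t h0
    have := congrArg Matrix.det (hMN t)
    rw [Matrix.det_mul, h0, zero_mul, Matrix.det_one] at this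
    exact zero_ne_one this
  have hN : ∀ t, N t = (M t).det⁻¹ • (M t).adjugate := by
    intro t
    rw [← Matrix.inv_eq_right_inv (hMN t), Matrix.inv_def, Ring.inverse_eq_inv']
  have hd : ContDiff ℝ ∞ (fun t => (M t).det) := by
    have : (fun t => (M t).det) = fun t => M t 0 0 * M t 1 1 - M t 0 1 * M t 1 0 := by
      funext t; rw [Matrix.det_fin_two]
    rw [this]
    exact ((hM 0 0).mul (hM 1 1)).sub ((hM 0 1).mul (hM 1 0))
  have hdi : ContDiff ℝ ∞ (fun t => ((M t).det)⁻¹) := hd.inv hdet
  have hadj : ContDiff ℝ ∞ (fun t => (M t).adjugate i j) := by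
    have : (fun t => (M t).adjugate i j)
        = fun t => (!![M t 1 1, -M t 0 1; -M t 1 0, M t 0 0] : Matrix (Fin 2) (Fin 2) ℂ) i j := by
      funext t; rw [Matrix.adjugate_fin_two]
    rw [this]
    fin_cases i <;> fin_cases j
    · simpa using hM 1 1
    · simpa using (hM 0 1).neg
    · simpa using (hM 1 0).neg
    · simpa using hM 0 0
  have : (fun t => N t i j) = fun t => ((M t).det)⁻¹ * (M t).adjugate i j := by
    funext t; rw [hN t, Matrix.smul_apply, smul_eq_mul]
  rw [this]
  exact hdi.mul hadj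

theorem adj_smooth228 {f : G K → ℂ} (hf : IsSmoothAtInf f) : IsSmoothAtInf (adj f) := by
  intro n h hfin hsm g
  have hfin' : ∀ (t : Fin n → ℝ) (v : HeightOneSpectrum (𝓞 K)),
      TrivAtFin v (g * (h t)⁻¹ * g⁻¹) := by
    intro t v
    have h1 : finComp v (h t)⁻¹ = 1 := trivAtFin_inv228 (hfin t v)
    unfold TrivAtFin
    rw [finComp_mul228, finComp_mul228, h1, mul_one, finComp_mul_inv228]
  have hsm' : ∀ (w : InfinitePlace K) (i j : Fin 2),
      ContDiff ℝ ∞ (fun t => infComp w (g * (h t)⁻¹ * g⁻¹) i j) := by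
    intro w i j
    have hN := contDiff_inv_entries228 (fun t => infComp w (h t)) (fun t => infComp w (h t)⁻¹)
      (fun t => infComp_mul_inv228 w (h t)) (hsm w)
    have h1 := contDiff_mul_entries228 (fun _ => infComp w g) (fun t => infComp w (h t)⁻¹)
      (fun _ _ => contDiff_const) hN
    have h2 := contDiff_mul_entries228 (fun t => infComp w g * infComp w (h t)⁻¹)
      (fun _ => infComp w g⁻¹) h1 (fun _ _ => contDiff_const) i j
    have : (fun t => infComp w (g * (h t)⁻¹ * g⁻¹) i j)
        = fun t => (infComp w g * infComp w (h t)⁻¹ * infComp w g⁻¹) i j := by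
      funext t; rw [infComp_mul228, infComp_mul228]
    rw [this]
    exact h2
  have key := hf n (fun t => g * (h t)⁻¹ * g⁻¹) hfin' hsm' g⁻¹
  have : (fun t => adj f (g * h t))
      = fun t => Complex.conjCLE (f (g⁻¹ * (g * (h t)⁻¹ * g⁻¹))) := by
    funext t
    rw [adj_apply228]
    have : (g * h t)⁻¹ = g⁻¹ * (g * (h t)⁻¹ * g⁻¹) := by group
    rw [this]; rfl
  rw [this]
  exact Complex.conjCLE.contDiff.comp key

/-! ## The leaf -/

theorem adj_isTestFn228 (_hT : T1.T1Out K) {𝔫 : Ideal (𝓞 K)} {f : G K → ℂ} (hf : IsTestFn 𝔫 f) :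
    IsTestFn 𝔫 (adj f) :=
  { cont := adj_cont228 hf.cont
    smooth := adj_smooth228 hf.smooth
    cpt := adj_cpt228 hf.cpt
    level_right := fun u hu g =>
      adj_right228 (fun g' => hf.level_left u⁻¹ (inLevelGroup_inv228 hu) g') g
    level_left := fun u hu g =>
      adj_left228 (fun g' => hf.level_right u⁻¹ (inLevelGroup_inv228 hu) g') g
    arch_right := fun w k hk g =>
      adj_right228 (fun g' => hf.arch_left w k⁻¹ (isArchCompact_inv228 hk) g') g
    arch_left := fun w k hk g =>
      adj_left228 (fun g' => hf.arch_right w k⁻¹ (isArchCompact_inv228 hk) g') g }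

theorem adj_isSphTestFn228 (hT : T1.T1Out K) {𝔫 : Ideal (𝓞 K)} {f : G K → ℂ}
    (hf : IsSphTestFn 𝔫 f) : IsSphTestFn 𝔫 (adj f) := by
  refine ⟨adj_isTestFn228 hT hf.test, ?_⟩
  intro g hg v hv i j
  have hfne : f g⁻¹ ≠ 0 := by
    intro h; apply hg; rw [adj_apply228, h, map_zero]
  have := hf.bad_unit g⁻¹ hfne v hv i j
  rw [inv_inv] at this
  exact ⟨this.2, this.1⟩

/-- **T2.02a**: `adj` preserves the test functions and the spherical test functions. -/
theorem leaf02a_228 : Leaf02a K :=
  fun hT _ _ => ⟨fun _ hf => adj_isTestFn228 hT hf, fun _ hf => adj_isSphTestFn228 hT hf⟩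

end Fermat.Agent.LT.T2.H228

end
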