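import Mathlib
import Fermat.Agent.LT.T2.H228.AdjTest

/-!
# Row LT, tower T2, leaf T2.02c (helper228), part 1: the unfolding group

OFF-MAIN.  Vocabulary: `T2/Spec.lean` v3 (sha256 b934629a).

* `slabFn228 K g = ‖det g‖_𝔸`, multiplicative and positive (`T1.AdNormC`), `= 1` on `GL₂(K)`;
* `z₀`: a positive scalar at ONE infinite place `w₀` with `‖det z₀‖_𝔸 = 2`; it is central;
* `unfGrp228 z₀ = GL₂(K) · z₀^ℤ`, a countable subgroup of `G K`;
* for a frame `F` (strict fundamental domain `D` of `GL₂(K)` in the slab): for every `a : G K`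
  there is EXACTLY ONE `h ∈ GL₂(K) · z₀^ℤ` with `h a ∈ D`.
-/

set_option autoImplicit false
set_option linter.unusedSectionVars false

open IsDedekindDomain NumberField MeasureTheory AutomorphicForm
open Fermat.Agent.LT.H556.A0

noncomputable section

namespace Fermat.Agent.LT.T2.H228

open Fermat.Agent.LT.T2

variable {K : Type} [Field K] [NumberField K]

/-! ## The function `‖det g‖_𝔸` -/

/-- The function `g ↦ ‖det g‖_𝔸`. -/
def slabFn228 (K : Type) [Field K] [NumberField K] (g : G K) : ℝ :=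
  T1.adNorm K (Matrix.det (g : Matrix (Fin 2) (Fin 2) (Adl K)))

theorem slabFn228_eq (g : G K) :
    slabFn228 K g = T1.adNorm K ((Matrix.GeneralLinearGroup.det g : (Adl K)ˣ) : Adl K) := by
  simp [slabFn228]

theorem slabFn228_mul (h : T1.AdNormC K) (g g' : G K) :
    slabFn228 K (g * g') = slabFn228 K g * slabFn228 K g' := by
  rw [slabFn228_eq, slabFn228_eq, slabFn228_eq, map_mul]
  exact h.2.1 _ _

theorem slabFn228_pos (h : T1.AdNormC K) (g : G K) : 0 < slabFn228 K g := by
  rw [slabFn228_eq]; exact h.1 _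

theorem mem_slab_iff228 (g : G K) : g ∈ T1.slab K ↔ 1 ≤ slabFn228 K g ∧ slabFn228 K g < 2 :=
  Iff.rfl

theorem slabFn228_one (h : T1.AdNormC K) : slabFn228 K (1 : G K) = 1 := by
  have h1 := slabFn228_mul h (1 : G K) 1
  rw [mul_one] at h1
  have h2 := slabFn228_pos h (1 : G K)
  nlinarith

theorem slabFn228_inv (h : T1.AdNormC K) (g : G K) :
    slabFn228 K g⁻¹ = (slabFn228 K g)⁻¹ := by
  have h1 : slabFn228 K g * slabFn228 K g⁻¹ = 1 := by
    rw [← slabFn228_mul h, mul_inv_cancel, slabFn228_one h]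
  exact eq_inv_of_mul_eq_one_right h1

theorem slabFn228_zpow (h : T1.AdNormC K) (g : G K) (n : ℤ) :
    slabFn228 K (g ^ n) = slabFn228 K g ^ n := by
  induction n using Int.induction_on with
  | zero => rw [zpow_zero, zpow_zero, slabFn228_one h]
  | succ n ih =>
    rw [zpow_add_one, slabFn228_mul h, ih, zpow_add_one₀ (slabFn228_pos h g).ne']
  | pred n ih =>
    rw [zpow_sub_one, slabFn228_mul h, ih, slabFn228_inv h,
      zpow_sub_one₀ (slabFn228_pos h g).ne']

/-- Product formula: `‖det γ‖_𝔸 = 1` for `γ ∈ GL₂(K)`. -/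
theorem slabFn228_ratG (h : T1.AdNormC K) (γ : GL (Fin 2) K) :
    slabFn228 K (T1.ratG K γ) = 1 := by
  have h3 := h.2.2.1 (Matrix.GeneralLinearGroup.det γ)
  rw [slabFn228]
  have : Matrix.det ((T1.ratG K γ : G K) : Matrix (Fin 2) (Fin 2) (Adl K))
      = ((T1.ratUnit K (Matrix.GeneralLinearGroup.det γ) : (Adl K)ˣ) : Adl K) := by
    change Matrix.det ((algebraMap K (Adl K)).mapMatrix (γ : Matrix (Fin 2) (Fin 2) K)) = _
    rw [← RingHom.map_det]
    rfl
  rw [this]
  exact h3

theorem slabFn228_formula (g : G K) :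
    slabFn228 K g = (∏ w : InfinitePlace K, ‖(infComp w g).det‖ ^ w.mult) *
      ∏ᶠ v : HeightOneSpectrum (𝓞 K), ‖(finComp v g).det‖ := by
  unfold slabFn228 T1.adNorm
  have h1 : ∀ w : InfinitePlace K,
      ‖(Matrix.det (g : Matrix (Fin 2) (Fin 2) (Adl K))).1 w‖ ^ w.mult
        = ‖(infComp w g).det‖ ^ w.mult := fun w => by rw [norm_det_inf228]
  have h2 : ∀ v : HeightOneSpectrum (𝓞 K),
      ‖(Matrix.det (g : Matrix (Fin 2) (Fin 2) (Adl K))).2 v‖ = ‖(finComp v g).det‖ :=
    fun v => by rw [det_finComp228]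
  rw [Finset.prod_congr rfl (fun w _ => h1 w), finprod_congr h2]

/-! ## A positive scalar at one infinite place -/

theorem exists_archC228 (w : InfinitePlace K) (r : ℝ) :
    ∃ c : w.Completion, InfinitePlace.Completion.extensionEmbedding w c = (r : ℂ) := by
  by_cases hw : w.IsReal
  · obtain ⟨c, hc⟩ := InfinitePlace.Completion.surjective_extensionEmbeddingOfIsReal hw r
    refine ⟨c, ?_⟩
    rw [← InfinitePlace.Completion.extensionEmbeddingOfIsReal_apply hw, hc]
  · exact InfinitePlace.Completion.surjective_extensionEmbedding_of_isComplex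
      (InfinitePlace.not_isReal_iff_isComplex.1 hw) (r : ℂ)

/-- The element of the completion at `w` which embeds to the real number `r`. -/
def archC228 (w : InfinitePlace K) (r : ℝ) : w.Completion := Classical.choose (exists_archC228 w r)

theorem archC228_spec (w : InfinitePlace K) (r : ℝ) :
    InfinitePlace.Completion.extensionEmbedding w (archC228 w r) = (r : ℂ) :=
  Classical.choose_spec (exists_archC228 w r)

theorem archC228_mul (w : InfinitePlace K) (r s : ℝ) :
    archC228 w r * archC228 w s = archC228 w (r * s) := by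
  apply (InfinitePlace.Completion.extensionEmbedding w).injective
  rw [map_mul, archC228_spec, archC228_spec, archC228_spec, Complex.ofReal_mul]

theorem archC228_one (w : InfinitePlace K) : archC228 w 1 = 1 := by
  apply (InfinitePlace.Completion.extensionEmbedding w).injective
  rw [archC228_spec, map_one, Complex.ofReal_one]

open Classical in
/-- The adele which is `r` at the infinite place `w₀` and `1` at every other place. -/
def locA228 (w₀ : InfinitePlace K) (r : ℝ) : Adl K :=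
  (fun w => if w = w₀ then archC228 w r else 1, 1)

theorem locA228_inf_self (w₀ : InfinitePlace K) (r : ℝ) :
    (locA228 w₀ r).1 w₀ = archC228 w₀ r := by
  unfold locA228
  exact if_pos rfl

theorem locA228_inf_ne (w₀ : InfinitePlace K) (r : ℝ) {w : InfinitePlace K} (hw : w ≠ w₀) :
    (locA228 w₀ r).1 w = 1 := by
  unfold locA228
  exact if_neg hw

theorem locA228_fin (w₀ : InfinitePlace K) (r : ℝ) (v : HeightOneSpectrum (𝓞 K)) :
    (locA228 w₀ r).2 v = 1 := rfl

theorem locA228_mul (w₀ : InfinitePlace K) (r s : ℝ) :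
    locA228 w₀ r * locA228 w₀ s = locA228 w₀ (r * s) := by
  refine adele_ext228 (fun w => ?_) (fun v => ?_)
  · change (locA228 w₀ r).1 w * (locA228 w₀ s).1 w = _
    by_cases hw : w = w₀
    · subst hw
      rw [locA228_inf_self, locA228_inf_self, locA228_inf_self, archC228_mul]
    · rw [locA228_inf_ne _ _ hw, locA228_inf_ne _ _ hw, locA228_inf_ne _ _ hw, one_mul]
  · change (1 : v.adicCompletion K) * 1 = 1
    rw [one_mul]

theorem locA228_one (w₀ : InfinitePlace K) : locA228 w₀ 1 = (1 : Adl K) := by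
  refine adele_ext228 (fun w => ?_) (fun v => rfl)
  by_cases hw : w = w₀
  · subst hw
    rw [locA228_inf_self, archC228_one]; rfl
  · rw [locA228_inf_ne _ _ hw]; rfl

/-- The scalar matrix of parameter `r ≠ 0` at the infinite place `w₀`. -/
def locG228 (w₀ : InfinitePlace K) (r : ℝ) (hr : r ≠ 0) : G K where
  val := Matrix.scalar (Fin 2) (locA228 w₀ r)
  inv := Matrix.scalar (Fin 2) (locA228 w₀ r⁻¹)
  val_inv := by rw [← map_mul, locA228_mul, mul_inv_cancel₀ hr, locA228_one, map_one]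
  inv_val := by rw [← map_mul, locA228_mul, inv_mul_cancel₀ hr, locA228_one, map_one]

theorem locG228_apply (w₀ : InfinitePlace K) (r : ℝ) (hr : r ≠ 0) (i j : Fin 2) :
    ((locG228 w₀ r hr : G K) : Matrix (Fin 2) (Fin 2) (Adl K)) i j
      = if i = j then locA228 w₀ r else 0 := by
  change (Matrix.scalar (Fin 2) (locA228 w₀ r)) i j = _
  by_cases hij : i = j
  · subst hij
    rw [if_pos rfl, Matrix.scalar_apply, Matrix.diagonal_apply_eq]
  · rw [if_neg hij, Matrix.scalar_apply, Matrix.diagonal_apply_ne _ hij]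

theorem infComp_locG228_self (w₀ : InfinitePlace K) (r : ℝ) (hr : r ≠ 0) :
    infComp w₀ (locG228 w₀ r hr) = Matrix.diagonal (fun _ => (r : ℂ)) := by
  refine Matrix.ext fun i j => ?_
  change InfinitePlace.Completion.extensionEmbedding w₀
    ((((locG228 w₀ r hr : G K) : Matrix (Fin 2) (Fin 2) (Adl K)) i j).1 w₀) = _
  rw [locG228_apply]
  by_cases hij : i = j
  · subst hij
    rw [if_pos rfl, Matrix.diagonal_apply_eq, locA228_inf_self]
    exact archC228_spec w₀ r
  · rw [if_neg hij, Matrix.diagonal_apply_ne _ hij]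
    exact map_zero _

theorem trivAtInf_locG228 (w₀ : InfinitePlace K) (r : ℝ) (hr : r ≠ 0) {w : InfinitePlace K}
    (hw : w ≠ w₀) : TrivAtInf w (locG228 w₀ r hr) := by
  intro i j
  rw [locG228_apply]
  by_cases hij : i = j
  · subst hij
    rw [if_pos rfl, Matrix.one_apply_eq, locA228_inf_ne _ _ hw]
  · rw [if_neg hij, Matrix.one_apply_ne hij]; rfl

theorem trivAtFin_locG228 (w₀ : InfinitePlace K) (r : ℝ) (hr : r ≠ 0)
    (v : HeightOneSpectrum (𝓞 K)) : TrivAtFin v (locG228 w₀ r hr) := by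
  refine Matrix.ext fun i j => ?_
  change ((((locG228 w₀ r hr : G K) : Matrix (Fin 2) (Fin 2) (Adl K)) i j).2 v) = _
  rw [locG228_apply]
  by_cases hij : i = j
  · subst hij
    rw [if_pos rfl, Matrix.one_apply_eq]; rfl
  · rw [if_neg hij, Matrix.one_apply_ne hij]; rfl

theorem isArchPosScalar_locG228 (w₀ : InfinitePlace K) (r : ℝ) (hr : 0 < r) :
    IsArchPosScalar w₀ (locG228 w₀ r hr.ne') :=
  ⟨⟨fun _ hw => trivAtInf_locG228 w₀ r hr.ne' hw, fun v => trivAtFin_locG228 w₀ r hr.ne' v⟩,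
    r, hr, infComp_locG228_self w₀ r hr.ne'⟩

/-- `‖det z‖_𝔸 = (r²)^{[K_w₀ : ℝ]}` for the scalar `z` of parameter `r` at `w₀`. -/
theorem slabFn228_locG (w₀ : InfinitePlace K) (r : ℝ) (hr : r ≠ 0) :
    slabFn228 K (locG228 w₀ r hr) = (r ^ 2) ^ w₀.mult := by
  rw [slabFn228_formula]
  have h1 : ∀ w : InfinitePlace K, w ≠ w₀ →
      ‖(infComp w (locG228 w₀ r hr)).det‖ ^ w.mult = 1 := by
    intro w hw
    rw [infComp_eq_one_of_triv228 (trivAtInf_locG228 w₀ r hr hw), Matrix.det_one, norm_one,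
      one_pow]
  have h0 : ‖(infComp w₀ (locG228 w₀ r hr)).det‖ ^ w₀.mult = (r ^ 2) ^ w₀.mult := by
    rw [infComp_locG228_self, Matrix.det_diagonal]
    simp only [Finset.prod_const, Finset.card_univ, Fintype.card_fin, norm_pow,
      Complex.norm_real, Real.norm_eq_abs, sq_abs]
  have h2 : ∀ v : HeightOneSpectrum (𝓞 K), ‖(finComp v (locG228 w₀ r hr)).det‖ = 1 := by
    intro v
    have := trivAtFin_locG228 w₀ r hr v
    unfold TrivAtFin at this
    rw [this, Matrix.det_one, norm_one]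
  rw [finprod_eq_one_of_forall_eq_one h2, mul_one,
    Finset.prod_eq_single w₀ (fun w _ hw => h1 w hw) (fun h => absurd (Finset.mem_univ _) h), h0]

/-- There is a positive scalar `z₀` at one infinite place with `‖det z₀‖_𝔸 = 2`. -/
theorem exists_scalar_two228 (K : Type) [Field K] [NumberField K] :
    ∃ (w₀ : InfinitePlace K) (z₀ : G K), IsArchPosScalar w₀ z₀ ∧ slabFn228 K z₀ = 2 := by
  have w₀ : InfinitePlace K := Classical.arbitrary _
  set N : ℕ := w₀.mult with hN
  have hNpos : 0 < N := InfinitePlace.mult_pos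
  set r : ℝ := (2 : ℝ) ^ ((1 : ℝ) / (2 * N)) with hr
  have hrpos : 0 < r := Real.rpow_pos_of_pos (by norm_num) _
  refine ⟨w₀, locG228 w₀ r hrpos.ne', isArchPosScalar_locG228 w₀ r hrpos, ?_⟩
  rw [slabFn228_locG, ← pow_mul, hr, ← Real.rpow_natCast, ← Real.rpow_mul (by norm_num)]
  have : (1 : ℝ) / (2 * N) * ((2 * N : ℕ) : ℝ) = 1 := by
    have hN0 : (N : ℝ) ≠ 0 := by exact_mod_cast hNpos.ne'
    push_cast
    field_simp
  rw [this, Real.rpow_one]

/-! ## The unfolding group `GL₂(K) · z₀^ℤ` -/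

/-- The subgroup `GL₂(K) · z₀^ℤ` of `G K`, for a central `z₀`. -/
def unfGrp228 (z₀ : G K) (hz : ∀ y : G K, z₀ * y = y * z₀) : Subgroup (G K) :=
  (MonoidHom.noncommCoprod (T1.ratG K) (zpowersHom (G K) z₀)
    (fun γ _ => ((Commute.zpow_right (show Commute (T1.ratG K γ) z₀ from (hz _).symm) _)))).range

theorem mem_unfGrp228 {z₀ : G K} {hz : ∀ y : G K, z₀ * y = y * z₀} {h : G K} :
    h ∈ unfGrp228 z₀ hz ↔ ∃ (γ : GL (Fin 2) K) (n : ℤ), T1.ratG K γ * z₀ ^ n = h := by
  unfold unfGrp228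
  rw [MonoidHom.mem_range]
  constructor
  · rintro ⟨⟨γ, n⟩, rfl⟩
    exact ⟨γ, Multiplicative.toAdd n, rfl⟩
  · rintro ⟨γ, n, rfl⟩
    exact ⟨(γ, Multiplicative.ofAdd n), rfl⟩

theorem countable_GL228 : Countable (GL (Fin 2) K) := by
  have : Countable K := countable_K228
  have : Countable (Matrix (Fin 2) (Fin 2) K) := by
    unfold Matrix; infer_instance
  exact Function.Injective.countable (f := fun g : GL (Fin 2) K =>
    (g : Matrix (Fin 2) (Fin 2) K)) Units.val_injective

theorem countable_unfGrp228 (z₀ : G K) (hz : ∀ y : G K, z₀ * y = y * z₀) :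
    Countable (unfGrp228 z₀ hz) := by
  have := countable_GL228 (K := K)
  unfold unfGrp228
  exact (Set.countable_range _).to_subtype

/-- **Unfolding**: for every `a` there is exactly one `h ∈ GL₂(K) · z₀^ℤ` with `h a ∈ D`. -/
theorem existsUnique_unf228 (hA : T1.AdNormC K) (F : Frame K) {z₀ : G K}
    (hz : ∀ y : G K, z₀ * y = y * z₀) (hz2 : slabFn228 K z₀ = 2) (a : G K) :
    ∃! h : unfGrp228 z₀ hz, (h : G K) * a ∈ F.D := by
  have hpos := slabFn228_pos hA a
  -- existence
  obtain ⟨n, hn1, hn2⟩ := exists_mem_Ico_zpow (y := (2 : ℝ)) hpos (by norm_num)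
  have hslab : z₀ ^ (-n) * a ∈ T1.slab K := by
    rw [mem_slab_iff228, slabFn228_mul hA, slabFn228_zpow hA, hz2, zpow_neg]
    have h2n : (0 : ℝ) < 2 ^ n := zpow_pos (by norm_num) n
    constructor
    · rw [inv_mul_eq_div, le_div_iff₀ h2n, one_mul]; exact hn1
    · rw [inv_mul_eq_div, div_lt_iff₀ h2n]
      rw [zpow_add_one₀ (by norm_num : (2 : ℝ) ≠ 0)] at hn2
      linarith
  obtain ⟨γ, hγ, -⟩ := F.strict _ hslab
  have hmem : T1.ratG K γ * z₀ ^ (-n) ∈ unfGrp228 z₀ hz := mem_unfGrp228.2 ⟨γ, -n, rfl⟩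
  refine ⟨⟨_, hmem⟩, ?_, ?_⟩
  · change T1.ratG K γ * z₀ ^ (-n) * a ∈ F.D
    rw [mul_assoc]; exact hγ
  · rintro ⟨h, hh⟩ hha
    change h * a ∈ F.D at hha
    obtain ⟨γ', n', rfl⟩ := mem_unfGrp228.1 hh
    have hs' : T1.ratG K γ' * z₀ ^ n' * a ∈ T1.slab K := F.sub hha
    rw [mem_slab_iff228, slabFn228_mul hA, slabFn228_mul hA, slabFn228_ratG hA, one_mul,
      slabFn228_zpow hA, hz2] at hs'
    -- `n' = -n`
    have hnn : n' = -n := by
      by_contra hne
      rcases lt_or_gt_of_ne hne with hlt | hgt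
      · -- n' < -n : 2^n' * s ≤ 2^(-n-1) * s < 1
        have h1 : n' + 1 ≤ -n := hlt
        have h2 : (2 : ℝ) ^ (n' + 1) ≤ 2 ^ (-n) := zpow_le_zpow_right₀ (by norm_num) h1
        rw [zpow_add_one₀ (by norm_num : (2 : ℝ) ≠ 0)] at h2
        have h3 : (2 : ℝ) ^ (-n) * slabFn228 K a < 2 := by
          rw [zpow_neg, inv_mul_eq_div, div_lt_iff₀ (zpow_pos (by norm_num) n)]
          rw [zpow_add_one₀ (by norm_num : (2 : ℝ) ≠ 0)] at hn2
          linarith
        have h4 : (2 : ℝ) ^ n' * 2 * slabFn228 K a ≤ 2 ^ (-n) * slabFn228 K a :=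
          mul_le_mul_of_nonneg_right h2 hpos.le
        nlinarith [hs'.1]
      · have h1 : -n + 1 ≤ n' := hgt
        have h2 : (2 : ℝ) ^ (-n + 1) ≤ 2 ^ n' := zpow_le_zpow_right₀ (by norm_num) h1
        rw [zpow_add_one₀ (by norm_num : (2 : ℝ) ≠ 0)] at h2
        have h3 : 1 ≤ (2 : ℝ) ^ (-n) * slabFn228 K a := by
          rw [zpow_neg, inv_mul_eq_div, le_div_iff₀ (zpow_pos (by norm_num) n), one_mul]
          exact hn1
        have h4 : (2 : ℝ) ^ (-n) * 2 * slabFn228 K a ≤ 2 ^ n' * slabFn228 K a :=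
          mul_le_mul_of_nonneg_right h2 hpos.le
        nlinarith [hs'.2]
    subst hnn
    have hγ' : T1.ratG K γ' * (z₀ ^ (-n) * a) ∈ F.D := by
      rw [← mul_assoc]; exact hha
    have huniq := (F.strict _ hslab).unique hγ' hγ
    apply Subtype.ext
    change T1.ratG K γ' * z₀ ^ (-n) = T1.ratG K γ * z₀ ^ (-n)
    rw [huniq]

end Fermat.Agent.LT.T2.H228

end
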