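import Mathlib
import Fermat.Agent.LT.T2.H228.Unfold

/-!
# Row LT, tower T2, leaf T2.02c (helper228): the adjoint of `conv F f` is `conv F (adj f)`

OFF-MAIN.  `leaf02c_228 : Leaf02c K`.  Vocabulary: `T2/Spec.lean` v3 (sha256 b934629a).

With `k(a, b) = φ(a) conj ψ(b) f(b⁻¹ a)`:

* `pair F (conv F f φ) ψ = ∫_{b ∈ D} ∫_{a ∈ G} k` and `pair F φ (conv F (adj f) ψ) = ∫_{a ∈ D} ∫_{b ∈ G} k`
  (left invariance of the Haar measure, Fubini);
* `k` is invariant under the diagonal action of the countable group `GL₂(K) · z₀^ℤ` on `G × G`, and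
  `D × G`, `G × D` are two fundamental domains of this action (`existsUnique_unf228`), so the two
  integrals agree (`IsFundamentalDomain.setIntegral_eq`).

No unimodularity is used.
-/

set_option autoImplicit false
set_option linter.unusedSectionVars false

open IsDedekindDomain NumberField MeasureTheory AutomorphicForm
open Fermat.Agent.LT.H556.A0

noncomputable section

namespace Fermat.Agent.LT.T2.H228

open Fermat.Agent.LT.T2

attribute [local instance] Fermat.Agent.LT.T2.borelG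
attribute [local instance] borelSpaceG228

variable {K : Type} [Field K] [NumberField K]

/-! ## Invariance under the unfolding group -/

theorem rightInv_zpow228 {φ : G K → ℂ} {z : G K} (h : ∀ g : G K, φ (g * z) = φ g) (n : ℤ) :
    ∀ g : G K, φ (g * z ^ n) = φ g := by
  induction n using Int.induction_on with
  | zero => intro g; rw [zpow_zero, mul_one]
  | succ n ih => intro g; rw [zpow_add_one, ← mul_assoc, h, ih]
  | pred n ih =>
    intro g
    rw [zpow_sub_one, ← mul_assoc]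
    have := h (g * z ^ (-(n : ℤ)) * z⁻¹)
    rw [inv_mul_cancel_right] at this
    rw [← this, ih]

theorem cusp_unf_inv228 {𝔫 : Ideal (𝓞 K)} {φ : G K → ℂ} (hφ : IsCuspFn 𝔫 φ)
    {w₀ : InfinitePlace K} {z₀ : G K} (hz₀ : IsArchPosScalar w₀ z₀)
    (hz : ∀ y : G K, z₀ * y = y * z₀) {h : G K} (hh : h ∈ unfGrp228 z₀ hz) (a : G K) :
    φ (h * a) = φ a := by
  obtain ⟨γ, n, rfl⟩ := mem_unfGrp228.1 hh
  have hzn := rightInv_zpow228 (fun g => hφ.arch_scalar w₀ z₀ hz₀ g) n
  have hc : z₀ ^ n * a = a * z₀ ^ n := (Commute.zpow_left (show Commute z₀ a from hz a) n).eq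
  have h1 : φ (T1.ratG K γ * (z₀ ^ n * a)) = φ (z₀ ^ n * a) := hφ.left_inv γ (z₀ ^ n * a)
  rw [mul_assoc, h1, hc, hzn]

/-- The kernel `k(a, b) = φ(a) conj ψ(b) f(b⁻¹ a)`. -/
def adjKer228 (f φ ψ : G K → ℂ) (p : G K × G K) : ℂ :=
  φ p.1 * (starRingEnd ℂ) (ψ p.2) * f (p.2⁻¹ * p.1)

theorem adjKer228_inv {𝔫 : Ideal (𝓞 K)} (f : G K → ℂ) {φ ψ : G K → ℂ} (hφ : IsCuspFn 𝔫 φ)
    (hψ : IsCuspFn 𝔫 ψ) {w₀ : InfinitePlace K} {z₀ : G K} (hz₀ : IsArchPosScalar w₀ z₀)
    (hz : ∀ y : G K, z₀ * y = y * z₀) (h : unfGrp228 z₀ hz) (p : G K × G K) :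
    adjKer228 f φ ψ (h • p) = adjKer228 f φ ψ p := by
  have hp : h • p = ((h : G K) * p.1, (h : G K) * p.2) := rfl
  rw [hp]
  unfold adjKer228
  simp only
  rw [cusp_unf_inv228 hφ hz₀ hz h.2, cusp_unf_inv228 hψ hz₀ hz h.2]
  congr 2
  group

theorem continuous_adjKer228 {f φ ψ : G K → ℂ} (hf : Continuous f) (hφ : Continuous φ)
    (hψ : Continuous ψ) : Continuous (adjKer228 f φ ψ) := by
  unfold adjKer228
  exact ((hφ.comp continuous_fst).mul (Complex.continuous_conj.comp (hψ.comp continuous_snd))).mul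
    (hf.comp ((continuous_inv.comp continuous_snd).mul continuous_fst))

/-! ## The two fundamental domains -/

theorem isFundDom_left228 (hA : T1.AdNormC K) (F : Frame K) {z₀ : G K}
    (hz : ∀ y : G K, z₀ * y = y * z₀) (hz2 : slabFn228 K z₀ = 2) (ν : Measure (G K × G K)) :
    IsFundamentalDomain (unfGrp228 z₀ hz) (F.D ×ˢ (Set.univ : Set (G K))) ν := by
  refine IsFundamentalDomain.mk' (F.meas.prod MeasurableSet.univ).nullMeasurableSet fun p => ?_
  obtain ⟨h, hh, huniq⟩ := existsUnique_unf228 hA F hz hz2 p.1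
  refine ⟨h, ⟨hh, Set.mem_univ _⟩, fun h' hh' => huniq h' hh'.1⟩

theorem isFundDom_right228 (hA : T1.AdNormC K) (F : Frame K) {z₀ : G K}
    (hz : ∀ y : G K, z₀ * y = y * z₀) (hz2 : slabFn228 K z₀ = 2) (ν : Measure (G K × G K)) :
    IsFundamentalDomain (unfGrp228 z₀ hz) ((Set.univ : Set (G K)) ×ˢ F.D) ν := by
  refine IsFundamentalDomain.mk' (MeasurableSet.univ.prod F.meas).nullMeasurableSet fun p => ?_
  obtain ⟨h, hh, huniq⟩ := existsUnique_unf228 hA F hz hz2 p.2
  refine ⟨h, ⟨Set.mem_univ _, hh⟩, fun h' hh' => huniq h' hh'.2⟩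

/-! ## The adjoint formula -/

theorem integrable_inv_testFn228 (hT : T1.T1Out K) (F : Frame K) {𝔫 : Ideal (𝓞 K)}
    {f : G K → ℂ} (hf : IsTestFn 𝔫 f) : Integrable (fun x : G K => f x⁻¹) F.μ := by
  have := F.haar
  have : LocallyCompactSpace (G K) := hT.locComp.2.1
  have : T2Space (G K) := hT.locComp.2.2.1
  have : SecondCountableTopology (G K) := hT.locComp.2.2.2
  have hc : Continuous (fun x : G K => f x⁻¹) := hf.cont.comp continuous_inv
  have hs : HasCompactSupport (fun x : G K => f x⁻¹) :=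
    hf.cpt.comp_homeomorph (Homeomorph.inv (G K))
  exact hc.integrable_of_hasCompactSupport hs

theorem norm_adjKer228_le {f φ ψ : G K → ℂ} {Cφ Cψ : ℝ} (hCφ : ∀ g : G K, ‖φ g‖ ≤ Cφ)
    (hCψ : ∀ g : G K, ‖ψ g‖ ≤ Cψ) (a b : G K) :
    ‖adjKer228 f φ ψ (a, b)‖ ≤ Cφ * Cψ * ‖f (a⁻¹ * b)⁻¹‖ := by
  unfold adjKer228
  simp only
  rw [norm_mul, norm_mul, RCLike.norm_conj, mul_inv_rev, inv_inv]
  have h0 : 0 ≤ Cφ := le_trans (norm_nonneg _) (hCφ a)
  exact mul_le_mul_of_nonneg_right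
    (mul_le_mul (hCφ a) (hCψ b) (norm_nonneg _) h0) (norm_nonneg _)

theorem convAdj228 (hT : T1.T1Out K) (F : Frame K) {𝔫 : Ideal (𝓞 K)} {f φ ψ : G K → ℂ}
    (hf : IsTestFn 𝔫 f) (hφ : IsCuspFn 𝔫 φ) (hψ : IsCuspFn 𝔫 ψ) :
    pair F (conv F f φ) ψ = pair F φ (conv F (adj f) ψ) := by
  have := F.haar
  have : LocallyCompactSpace (G K) := hT.locComp.2.1
  have : T2Space (G K) := hT.locComp.2.2.1
  have : SecondCountableTopology (G K) := hT.locComp.2.2.2
  have hA := hT.adNorm
  obtain ⟨w₀, z₀, hz₀, hz2⟩ := exists_scalar_two228 K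
  have hz : ∀ y : G K, z₀ * y = y * z₀ := archPosScalar_central228 hz₀
  have : Countable (unfGrp228 z₀ hz) := countable_unfGrp228 z₀ hz
  have : IsFiniteMeasure (F.μ.restrict F.D) := isFiniteMeasure_restrict.2 F.fin.ne
  obtain ⟨Cφ, hCφ⟩ := hφ.bdd
  obtain ⟨Cψ, hCψ⟩ := hψ.bdd
  have hkc : Continuous (adjKer228 f φ ψ) := continuous_adjKer228 hf.cont hφ.cont hψ.cont
  -- the action is measurable and measure preserving
  have : MeasurableConstSMul (unfGrp228 z₀ hz) (G K × G K) := ⟨fun c =>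
    ((measurable_const_mul (c : G K)).comp measurable_fst).prodMk
      ((measurable_const_mul (c : G K)).comp measurable_snd)⟩
  have : SMulInvariantMeasure (unfGrp228 z₀ hz) (G K × G K) (F.μ.prod F.μ) := ⟨fun c s hs =>
    ((measurePreserving_mul_left F.μ (c : G K)).prod
      (measurePreserving_mul_left F.μ (c : G K))).measure_preimage hs.nullMeasurableSet⟩
  have hL := isFundDom_left228 hA F hz hz2 (F.μ.prod F.μ)
  have hR := isFundDom_right228 hA F hz hz2 (F.μ.prod F.μ)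
  have hinv := adjKer228_inv f hφ hψ hz₀ hz
  have hkey : ∫ p in F.D ×ˢ (Set.univ : Set (G K)), adjKer228 f φ ψ p ∂(F.μ.prod F.μ)
      = ∫ p in (Set.univ : Set (G K)) ×ˢ F.D, adjKer228 f φ ψ p ∂(F.μ.prod F.μ) :=
    hL.setIntegral_eq hR hinv
  -- integrability on `D × G`
  have hadj := integrable_inv_testFn228 hT F hf
  have hIL : Integrable (adjKer228 f φ ψ) ((F.μ.restrict F.D).prod F.μ) := by
    rw [integrable_prod_iff hkc.aestronglyMeasurable]
    constructor
    · refine Filter.Eventually.of_forall fun a => ?_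
      have h1 : Integrable (fun b : G K => f (a⁻¹ * b)⁻¹) F.μ := hadj.comp_mul_left a⁻¹
      refine (h1.norm.const_mul (Cφ * Cψ)).mono'
        (hkc.comp (Continuous.prodMk_right a)).aestronglyMeasurable
        (Filter.Eventually.of_forall fun b => norm_adjKer228_le hCφ hCψ a b)
    · refine Integrable.mono' (integrable_const (Cφ * Cψ * ∫ x, ‖f x⁻¹‖ ∂F.μ))
        hkc.aestronglyMeasurable.norm.integral_prod_right'
        (Filter.Eventually.of_forall fun a => ?_)
      have h1 : Integrable (fun b : G K => f (a⁻¹ * b)⁻¹) F.μ := hadj.comp_mul_left a⁻¹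
      have h2 : ∫ b, ‖f (a⁻¹ * b)⁻¹‖ ∂F.μ = ∫ x, ‖f x⁻¹‖ ∂F.μ :=
        integral_mul_left_eq_self (fun x => ‖f x⁻¹‖) a⁻¹
      rw [Real.norm_of_nonneg (integral_nonneg fun _ => norm_nonneg _), ← h2,
        ← integral_const_mul]
      exact integral_mono_of_nonneg (Filter.Eventually.of_forall fun _ => norm_nonneg _)
        (h1.norm.const_mul _)
        (Filter.Eventually.of_forall fun b => norm_adjKer228_le hCφ hCψ a b)
  have hIR : Integrable (adjKer228 f φ ψ) (F.μ.prod (F.μ.restrict F.D)) := by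
    have h1 : IntegrableOn (adjKer228 f φ ψ) (F.D ×ˢ (Set.univ : Set (G K))) (F.μ.prod F.μ) := by
      rw [IntegrableOn, ← Measure.prod_restrict, Measure.restrict_univ]; exact hIL
    have h2 := (hL.integrableOn_iff hR hinv).1 h1
    rw [IntegrableOn, ← Measure.prod_restrict, Measure.restrict_univ] at h2
    exact h2
  -- the left side
  have hlhs : pair F (conv F f φ) ψ
      = ∫ p in (Set.univ : Set (G K)) ×ˢ F.D, adjKer228 f φ ψ p ∂(F.μ.prod F.μ) := by
    rw [← Measure.prod_restrict, Measure.restrict_univ, integral_prod_symm _ hIR]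
    unfold pair
    refine integral_congr_ae (Filter.Eventually.of_forall fun b => ?_)
    have h1 : ∫ a, adjKer228 f φ ψ (b * a, b) ∂F.μ = ∫ a, adjKer228 f φ ψ (a, b) ∂F.μ :=
      integral_mul_left_eq_self (fun a => adjKer228 f φ ψ (a, b)) b
    change conv F f φ b * (starRingEnd ℂ) (ψ b) = ∫ a, adjKer228 f φ ψ (a, b) ∂F.μ
    rw [← h1]
    unfold conv
    rw [← integral_mul_const]
    refine integral_congr_ae (Filter.Eventually.of_forall fun h => ?_)
    change φ (b * h) * f h * (starRingEnd ℂ) (ψ b)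
      = φ (b * h) * (starRingEnd ℂ) (ψ b) * f (b⁻¹ * (b * h))
    rw [inv_mul_cancel_left]
    ring
  -- the right side
  have hrhs : pair F φ (conv F (adj f) ψ)
      = ∫ p in F.D ×ˢ (Set.univ : Set (G K)), adjKer228 f φ ψ p ∂(F.μ.prod F.μ) := by
    rw [← Measure.prod_restrict, Measure.restrict_univ, integral_prod _ hIL]
    unfold pair
    refine integral_congr_ae (Filter.Eventually.of_forall fun a => ?_)
    have h1 : ∫ b, adjKer228 f φ ψ (a, a * b) ∂F.μ = ∫ b, adjKer228 f φ ψ (a, b) ∂F.μ :=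
      integral_mul_left_eq_self (fun b => adjKer228 f φ ψ (a, b)) a
    change φ a * (starRingEnd ℂ) (conv F (adj f) ψ a) = ∫ b, adjKer228 f φ ψ (a, b) ∂F.μ
    rw [← h1]
    unfold conv
    rw [← integral_conj, ← integral_const_mul]
    refine integral_congr_ae (Filter.Eventually.of_forall fun h => ?_)
    change φ a * (starRingEnd ℂ) (ψ (a * h) * (starRingEnd ℂ) (f h⁻¹))
      = φ a * (starRingEnd ℂ) (ψ (a * h)) * f ((a * h)⁻¹ * a)
    rw [map_mul, Complex.conj_conj, mul_inv_rev, inv_mul_cancel_right]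
    ring
  rw [hlhs, hrhs, hkey]

/-! ## The leaf -/

/-- **T2.02c**: the adjoint of `conv F f` on the cusp functions is `conv F (adj f)`. -/
theorem leaf02c_228 : Leaf02c K :=
  fun hT _ _ _ _ F _ _ _ hf hφ hψ => convAdj228 hT F hf hφ hψ

end Fermat.Agent.LT.T2.H228

end
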