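import Mathlib
import Fermat.Agent.LT.T2.H228.ConvAdj
import Fermat.Agent.LT.T2.H724.Closed

/-!
# Row LT, tower T2, leaf T2.02 (`ConvCusp`, registry 866): CLOSED (helper228, owner)

OFF-MAIN.  `leaf02_228 (K) : T2.Leaf02 K`, VERBATIM the leaf of `T2/Spec.lean` v3
(helper130@b73350f76, sha256 b934629a); the only hypothesis is `T1.T1Out K`, inside `Leaf02`.

| part | registry | seat | file | theorem |
|---|---|---|---|---|
| T2.02a `adj` preserves (spherical) test functions | 973 | helper228 | `H228/AdjTest.lean` | `leaf02a_228` |
| T2.02b `conv F f` preserves cusp functions | 974 | helper228 | `H228/ConvStable.lean` | `leaf02b_228` |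
| T2.02c adjoint of `conv F f` is `conv F (adj f)` | 975 | helper228 (also helper981) | `H228/ConvAdj.lean` | `leaf02c_228` |
| T2.02d spherical convolutions commute | 976 | helper724 + 323, 833, 286, 473, 570, 8, 437 | `H724/Closed.lean` | `leaf02d_724` |

The files of helper724's closure are byte-identical copies of origin/helper724@670e68d67.
-/

set_option autoImplicit false

open IsDedekindDomain NumberField MeasureTheory AutomorphicForm
open Fermat.Agent.LT.H556.A0

noncomputable section

namespace Fermat.Agent.LT.T2.H228

open Fermat.Agent.LT.T2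

/-- **T2.02, closed**: the leaf `ConvCusp` of tower T2. -/
theorem leaf02_228 (K : Type) [Field K] [NumberField K] : T2.Leaf02 K :=
  leaf02_of_parts228 K leaf02a_228 leaf02b_228 leaf02c_228 (H724.leaf02d_724 K)

end Fermat.Agent.LT.T2.H228

end
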